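/-
ALPHA-INV (helper5), part 1: descent of elements of `L · F₀ ⊆ L((q))` to an intermediate field.

`F₀ ⊆ ℚ((q))` a subfield, `L / ℚ` algebraic, `E ⊆ L` a subfield.  An element of
`laurentBaseChange L F₀` all of whose `q`-expansion coefficients lie in `E` comes from
`laurentBaseChange E F₀` (apply coefficientwise an `E`-linear retraction `L → E`).
Application: the elements of `F_M = ℚ̄ · F₀` fixed by a finite-index subgroup `H` of the inertia
group `𝔓.I` (acting coefficientwise) are the elements coming from level `H`.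
-/
import Mathlib
import Fermat.Prelude.Def_ModularCurve_ArithmeticGalois
import Fermat.Agent.Lib.Eis.Semi.RatDescent
import Fermat.Agent.Lib.T1.Inst.CartUp

set_option autoImplicit false
set_option linter.style.haveILetI false
set_option linter.unusedSectionVars false

open HahnSeries ModularCurve AlgebraicCurve Fermat.Agent.TW Fermat.Agent.S05Lib Fermat.Agent.T1

noncomputable section

namespace Fermat.Agent.Alpha

local notation "Qb" => AlgebraicClosure ℚ
local notation "GQ" => (AlgebraicClosure ℚ ≃ₐ[ℚ] AlgebraicClosure ℚ)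

section General

variable {E L : Type*} [Field E] [Field L] [Algebra ℚ E] [Algebra ℚ L] [Algebra E L]
  [IsScalarTower ℚ E L] [Algebra.IsAlgebraic ℚ L]
variable (F₀ : IntermediateField ℚ (LaurentSeries ℚ))

/-- an `E`-linear retraction of `E → L` -/
theorem alpi_exists_retraction (E L : Type*) [Field E] [Field L] [Algebra E L] :
    ∃ lam : L →ₗ[E] E, ∀ e : E, lam (algebraMap E L e) = e := by
  obtain ⟨g, hg⟩ := (Algebra.linearMap E L).exists_leftInverse_of_injective
    (LinearMap.ker_eq_bot.mpr (algebraMap E L).injective)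
  exact ⟨g, fun e => by simpa using LinearMap.congr_fun hg e⟩

/-- **descent of the coefficient field**: an element of `L · F₀` with coefficients in `E` comes
from `E · F₀` -/
theorem alpi_descend {h : LaurentSeries L} (hh : h ∈ laurentBaseChange L F₀)
    (hc : ∀ n, h.coeff n ∈ Set.range (algebraMap E L)) :
    ∃ hE ∈ laurentBaseChange E F₀, coeffMap (algebraMap E L) hE = h := by
  classical
  obtain ⟨c, hcsum⟩ := Fermat.Agent.Eis.es_exists_finsupp_of_mem_laurentBaseChange L F₀ hh
  obtain ⟨lam, hlam⟩ := alpi_exists_retraction E L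
  refine ⟨c.sum fun a f => algebraMap E (LaurentSeries E) (lam a) *
    coeffEmb E (f : LaurentSeries ℚ), ?_, ?_⟩
  · refine sum_mem fun a _ => mul_mem ((laurentBaseChange E F₀).algebraMap_mem _) ?_
    exact coeffEmb_mem_laurentBaseChange E (c a).2
  · ext n
    obtain ⟨e, he⟩ := hc n
    have h1 : h.coeff n = ∑ a ∈ c.support,
        a * algebraMap ℚ L (((c a : ↥F₀) : LaurentSeries ℚ).coeff n) := by
      rw [hcsum, Finsupp.sum, HahnSeries.coeff_sum]
      refine Finset.sum_congr rfl fun a _ => ?_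
      rw [algebraMap_laurentSeries_eq_single, HahnSeries.coeff_single_zero_mul, coeffEmb_coeff]
    have h2 : ∀ a : L, ∀ r : ℚ, lam (a * algebraMap ℚ L r) = lam a * algebraMap ℚ E r := by
      intro a r
      rw [IsScalarTower.algebraMap_apply ℚ E L, mul_comm, ← Algebra.smul_def, map_smul,
        smul_eq_mul, mul_comm]
    have h3 : e = ∑ a ∈ c.support,
        lam a * algebraMap ℚ E (((c a : ↥F₀) : LaurentSeries ℚ).coeff n) := by
      rw [← hlam e, he, h1, map_sum]
      exact Finset.sum_congr rfl fun a _ => h2 a _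
    rw [coeffMap_coeff, Finsupp.sum, HahnSeries.coeff_sum, ← he, h3]
    refine congrArg _ (Finset.sum_congr rfl fun a _ => ?_)
    rw [algebraMap_laurentSeries_eq_single, HahnSeries.coeff_single_zero_mul, coeffEmb_coeff]

end General

section Level

variable (𝔓 : FFPlace) (M : ℕ) [NeZero M] (H : Subgroup 𝔓.I)

/-- a function is fixed by `σ` iff all its `q`-expansion coefficients are -/
theorem alpi_smul_eq_iff (σ : GQ) (f : ↥(modularFunctionFieldBar M)) :
    arithmeticGalois (modularFunctionFieldFull M) σ • f = f ↔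
      ∀ n, σ ((f : LaurentSeries Qb).coeff n) = (f : LaurentSeries Qb).coeff n := by
  constructor
  · intro h n
    have h1 := congrArg (fun g : ↥(modularFunctionFieldBar M) =>
      (g : LaurentSeries Qb).coeff n) h
    simp only [coe_arithmeticGalois_smul, coeffMap_coeff] at h1
    exact h1
  · intro h
    apply Subtype.ext
    rw [coe_arithmeticGalois_smul]
    ext n
    rw [coeffMap_coeff]
    exact h n

/-- the coefficients of a function of level `H` lie in `L_H` -/
theorem alpi_coeff_tbPhiF (f₀ : ↥(tbLevF 𝔓 M H)) (n : ℤ) :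
    ((tbPhiF 𝔓 M H f₀ : ↥(modularFunctionFieldBar M)) : LaurentSeries Qb).coeff n =
      (((f₀ : LaurentSeries ↥(tbFix 𝔓 H)).coeff n : ↥(tbFix 𝔓 H)) : Qb) := by
  rw [coe_tbPhiF, coeffMap_coeff]
  rfl

/-- functions of level `H` are fixed by `H` -/
theorem alpi_smul_tbPhiF {σ : 𝔓.I} (hσ : σ ∈ H) (f₀ : ↥(tbLevF 𝔓 M H)) :
    arithmeticGalois (modularFunctionFieldFull M) (σ : GQ) • tbPhiF 𝔓 M H f₀ =
      tbPhiF 𝔓 M H f₀ := by
  rw [alpi_smul_eq_iff]
  intro n
  rw [alpi_coeff_tbPhiF]
  exact (mem_tbFix 𝔓 H _).mp (Subtype.mem _) σ hσ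

/-- **functions fixed by `H` come from level `H`** -/
theorem alpi_exists_level {f : ↥(modularFunctionFieldBar M)}
    (hf : ∀ σ : 𝔓.I, σ ∈ H → arithmeticGalois (modularFunctionFieldFull M) (σ : GQ) • f = f) :
    ∃ f₀ : ↥(tbLevF 𝔓 M H), tbPhiF 𝔓 M H f₀ = f := by
  haveI : Algebra.IsAlgebraic ℚ Qb := AlgebraicClosure.isAlgebraic ℚ
  have hc : ∀ n, (f : LaurentSeries Qb).coeff n ∈ Set.range (algebraMap ↥(tbFix 𝔓 H) Qb) := by
    intro n
    have h1 : (f : LaurentSeries Qb).coeff n ∈ tbFix 𝔓 H := by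
      rw [mem_tbFix]
      intro σ hσ
      exact (alpi_smul_eq_iff M _ f).mp (hf σ hσ) n
    exact ⟨⟨_, h1⟩, rfl⟩
  obtain ⟨hE, hEmem, hEeq⟩ := alpi_descend (E := ↥(tbFix 𝔓 H)) (L := Qb)
    (modularFunctionFieldFull M) f.2 hc
  exact ⟨⟨hE, hEmem⟩, Subtype.ext hEeq⟩

end Level

end Fermat.Agent.Alpha
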