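/-
ALPHA-INV (helper5), part 3: **the cusp `∞`** of `X₀(M)` over `ℚ̄`, as the place of the function
field `F_M ⊆ ℚ̄((q))` given by the `q`-order.  It is fixed by the arithmetic action of `G_ℚ`.
-/
import Mathlib
import Fermat.Prelude.Def_ModularCurve_ArithmeticGalois
import Fermat.Agent.Lib.T1.GoodRed.EmbPlace
import Fermat.Agent.Lib.T1.Inst.IntUp
import Fermat.Agent.Lib.T1.Desc.PowDesc
import Fermat.Agent.Lib.Eis.Geom.CuspPlaces
import Fermat.Agent.Lib.Curve.PlaceBasic

set_option autoImplicit false
set_option linter.style.haveILetI false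
set_option linter.unusedSectionVars false
set_option synthInstance.maxHeartbeats 400000

open HahnSeries ModularCurve AlgebraicCurve Fermat.Agent.T1 Fermat.Agent.Curve
  Fermat.Agent.Curve.PlaceAux

noncomputable section

namespace Fermat.Agent.Alpha

local notation "Qb" => AlgebraicClosure ℚ
local notation "GQ" => (AlgebraicClosure ℚ ≃ₐ[ℚ] AlgebraicClosure ℚ)

variable (M : ℕ) [NeZero M]

theorem alpi_order_tbJ :
    ((modularFunctionFieldBar M).val (tbJ M)).order = -1 :=
  Fermat.Agent.Eis.eh_order_jqModC

theorem alpi_exists_order_ne :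
    ∃ y : ↥(modularFunctionFieldBar M), ((modularFunctionFieldBar M).val y).order ≠ 0 :=
  ⟨tbJ M, by rw [alpi_order_tbJ]; decide⟩

/-- **the cusp `∞`**: the place of `F_M` given by the `q`-order -/
def alpiInf : Place Qb ↥(modularFunctionFieldBar M) :=
  taEmbPlace (modularFunctionFieldBar M).val (alpi_exists_order_ne M)

/-- the order at `∞` is the `q`-order -/
theorem alpiInf_ord (f : ↥(modularFunctionFieldBar M)) :
    (alpiInf M).ord f = (f : LaurentSeries Qb).order := by
  obtain ⟨m, hm, hord⟩ := taEmbPlace_ord (modularFunctionFieldBar M).val (alpi_exists_order_ne M)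
  have h1 := hord (tbJ M)
  rw [alpi_order_tbJ] at h1
  have h2 : (m : ℤ) ∣ 1 := ⟨-(taEmbPlace (modularFunctionFieldBar M).val
    (alpi_exists_order_ne M)).ord (tbJ M), by linarith⟩
  have h3 : (m : ℤ) = 1 := Int.eq_one_of_dvd_one (by positivity) h2
  have h4 := hord f
  rw [h3, one_mul] at h4
  exact h4.symm

theorem alpiInf_ord_tbJ : (alpiInf M).ord (tbJ M) = -1 := by
  rw [alpiInf_ord]
  exact alpi_order_tbJ M

/-- the arithmetic action preserves the `q`-order -/
theorem alpi_order_smul (σ : GQ) (f : ↥(modularFunctionFieldBar M)) :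
    ((arithmeticGalois (modularFunctionFieldFull M) σ • f : ↥(modularFunctionFieldBar M)) :
      LaurentSeries Qb).order = (f : LaurentSeries Qb).order := by
  rw [coe_arithmeticGalois_smul]
  exact tdx_order_coeffMap _ _

/-- **the cusp `∞` is fixed by the arithmetic action of `G_ℚ`** -/
theorem alpi_inf_fixed (σ : GQ) :
    arithmeticGalois (modularFunctionFieldFull M) σ • alpiInf M = alpiInf M := by
  apply Place.ext
  rw [SemilinearAut.smul_toValuationSubring]
  ext f
  rw [ValuationSubring.mem_pointwise_smul_iff_inv_smul_mem, mem_iff, mem_iff, alpiInf_ord,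
    alpiInf_ord, ← map_inv, alpi_order_smul, smul_eq_zero_iff_eq]

/-- the divisors `n · ∞` are fixed by the arithmetic action -/
theorem alpi_smul_single_inf (σ : GQ) (n : ℤ) :
    arithmeticGalois (modularFunctionFieldFull M) σ •
      (Finsupp.single (alpiInf M) n : Divisor Qb ↥(modularFunctionFieldBar M)) =
      Finsupp.single (alpiInf M) n := by
  rw [SemilinearAut.smul_single, alpi_inf_fixed]

end Fermat.Agent.Alpha
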