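/-
ALPHA-INV (helper5), part 2a: the abstract counting step.

Setting of RED (`hg : T3aGood d ℓ x`).  If Gauss-integral elements `B i` of `L(D)` span `L(D)` and
have linearly independent reductions, and `deg D ≥ 2g - 1`, then the reductions span `L̄(red D)`;
hence every element of `L̄(red D)` is the reduction of a combination `∑ aᵢ Bᵢ` with coefficients
`aᵢ` in any prescribed set of representatives of the residue field.
-/
import Fermat.Agent.Lib.Alpha.Red.RR

set_option autoImplicit false
set_option linter.unusedSectionVars false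
set_option linter.style.haveILetI false

namespace Fermat.Agent.Alpha

open AlgebraicCurve IntermediateField Fermat.Agent.Curve Fermat.Agent.CurveP
  Fermat.Agent.Curve.PlaceAux Fermat.Agent.T1 Fermat.Agent.T3 RRAux

variable {K F k Fb : Type*} [Field K] [Field F] [Algebra K F] [Field k] [Field Fb] [Algebra k Fb]
variable [IsAlgClosed K] [IsAlgClosed k]
variable {d : TbBase K F k Fb} {ℓ : ℕ} {x : F} (hg : T3aGood d ℓ x)

include hg in
/-- the two Riemann–Roch spaces have the same dimension -/
theorem alpi_finrank_red {D : Divisor K F}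
    (hD : 2 * (genusR K F : ℤ) - 1 ≤ Divisor.degree D) :
    Module.finrank k ↥(riemannRochSpace (alprRed hg D)) =
      Module.finrank K ↥(riemannRochSpace D) := by
  haveI := hg.sep
  haveI := hg.sepb'
  have hgen := alpr_genus_eq hg
  have h1 : (ell D : ℤ) = Divisor.degree D + 1 - genusR K F := alpk_ell_eq hg.gen hD
  have h2 : (ell (alprRed hg D) : ℤ) = Divisor.degree (alprRed hg D) + 1 - genusR k Fb :=
    alpk_ell_eq hg.genb' (by rw [alpr_degree_red, ← hgen]; exact hD)
  rw [alpr_degree_red, ← hgen] at h2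
  have h3 : (ell (alprRed hg D) : ℤ) = ell D := by rw [h1, h2]
  have h4 : ell (alprRed hg D) = ell D := by exact_mod_cast h3
  exact h4

/-- **the counting step** -/
theorem alpi_lift_of_family {D : Divisor K F}
    (hD : 2 * (genusR K F : ℤ) - 1 ≤ Divisor.degree D) {n : ℕ} (B : Fin n → F)
    (hBU : ∀ i, B i ∈ riemannRochSpace D) (hBO : ∀ i, B i ∈ d.Ov)
    (hUB : riemannRochSpace D ≤ Submodule.span K (Set.range B))
    (hind : LinearIndependent k (fun i => d.res ⟨B i, hBO i⟩))
    (R : Set ↥d.A) (hR : ∀ c : k, ∃ a ∈ R, d.resA a = c)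
    {t : Fb} (ht : t ∈ riemannRochSpace (alprRed hg D)) :
    ∃ a : Fin n → ↥d.A, (∀ i, a i ∈ R) ∧
      ∑ i, ((a i : ↥d.A) : K) • B i ∈ riemannRochSpace D ∧
      ∃ hO : ∑ i, ((a i : ↥d.A) : K) • B i ∈ d.Ov,
        d.res ⟨∑ i, ((a i : ↥d.A) : K) • B i, hO⟩ = t := by
  classical
  haveI := hg.sep
  haveI := hg.sepb'
  haveI : FiniteDimensional K ↥(riemannRochSpace D) := finiteDimensional_riemannRochSpace hg.gen D
  haveI : FiniteDimensional k ↥(riemannRochSpace (alprRed hg D)) :=
    finiteDimensional_riemannRochSpace hg.genb' _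
  have hBmem : ∀ i, d.res ⟨B i, hBO i⟩ ∈ riemannRochSpace (alprRed hg D) :=
    fun i => alpr_resBall_le hg D ⟨B i, ⟨hBU i, hBO i⟩, rfl⟩
  set v : Fin n → ↥(riemannRochSpace (alprRed hg D)) :=
    fun i => ⟨d.res ⟨B i, hBO i⟩, hBmem i⟩ with hv
  have hvind : LinearIndependent k v := by
    refine LinearIndependent.of_comp (riemannRochSpace (alprRed hg D)).subtype ?_
    exact hind
  have hn1 : n ≤ Module.finrank k ↥(riemannRochSpace (alprRed hg D)) := by
    have := hvind.fintype_card_le_finrank
    rwa [Fintype.card_fin] at this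
  have hn2 : Module.finrank K ↥(riemannRochSpace D) ≤ n := by
    haveI : FiniteDimensional K ↥(Submodule.span K (Set.range B)) :=
      FiniteDimensional.span_of_finite K (Set.finite_range B)
    calc Module.finrank K ↥(riemannRochSpace D)
        ≤ Module.finrank K ↥(Submodule.span K (Set.range B)) := Submodule.finrank_mono hUB
      _ ≤ Fintype.card (Fin n) := finrank_range_le_card B
      _ = n := Fintype.card_fin n
  have hn3 := alpi_finrank_red hg hD
  have hcard : Fintype.card (Fin n) = Module.finrank k ↥(riemannRochSpace (alprRed hg D)) := by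
    rw [Fintype.card_fin]
    omega
  have htop := hvind.span_eq_top_of_card_eq_finrank' hcard
  have htmem : (⟨t, ht⟩ : ↥(riemannRochSpace (alprRed hg D))) ∈
      Submodule.span k (Set.range v) := by
    rw [htop]
    exact Submodule.mem_top
  obtain ⟨c, hc⟩ := (Submodule.mem_span_range_iff_exists_fun k).mp htmem
  choose a haR ha using fun i => hR (c i)
  have hmem : ∀ i, ((a i : ↥d.A) : K) • B i ∈ d.Ov := fun i => d.smul_mem (a i) (hBO i)
  have hsO : ∑ i, ((a i : ↥d.A) : K) • B i ∈ d.Ov := d.Ov.sum_mem fun i _ => hmem i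
  refine ⟨a, haR, ?_, hsO, ?_⟩
  · exact (riemannRochSpace D).sum_mem fun i _ => (riemannRochSpace D).smul_mem _ (hBU i)
  · rw [d.res_sum' Finset.univ _ hmem]
    have h2 : ∀ i, d.res ⟨((a i : ↥d.A) : K) • B i, hmem i⟩ =
        c i • ((v i : ↥(riemannRochSpace (alprRed hg D))) : Fb) := by
      intro i
      rw [d.res_smul' (a i) (hBO i), ha i]
    rw [Finset.sum_congr rfl fun i _ => h2 i]
    have h4 := congrArg Subtype.val hc
    rw [Submodule.coe_sum] at h4
    simpa using h4

end Fermat.Agent.Alpha
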