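/-
ALPHA-INV (helper5), part 2: **inertia-invariant lifts of functions**.

`F = F_M = ℚ̄(X₀(M))` with the arithmetic action of `G_ℚ` (coefficientwise on `q`-expansions),
`𝔓` a place of `ℚ̄` over `ℓ ∤ M` (`4 ∣ M` or `9 ∣ M`), `I = 𝔓.I` its inertia group.  For an
`I`-invariant divisor `D` of degree `≥ 2g - 1` every element of `L̄(red D)` is the reduction of an
`I`-invariant Gauss-integral element of `L(D)`.

Proof: `L(D)` is spanned by `I`-invariant functions (echelon form of `q`-expansions,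
`le_span_fixed_of_stable`), these come from the level `H = ⊤` of T1-B (`alpi_exists_level`); the
orthonormal basis property `TbLevelOK.cart` at that level gives functions over `W = 𝔓 ∩ ℚ̄^I` whose
reductions are linearly independent; counting dimensions (`alpk_ell_eq` on both fibres) they span
`L̄(red D)`, and the residue field of `W` is the full residue field (`tbFixRes_surjective`).
-/
import Fermat.Agent.Lib.Alpha.Inv.Descend
import Fermat.Agent.Lib.Alpha.Inv.LiftAbs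
import Fermat.Agent.Lib.T3.Red.Modular
import Fermat.Agent.Lib.Eis.Semi.Descent

set_option autoImplicit false
set_option linter.style.haveILetI false
set_option linter.unusedSectionVars false
set_option synthInstance.maxHeartbeats 400000

open HahnSeries ModularCurve AlgebraicCurve IntermediateField Fermat.Agent.TW Fermat.Agent.S05Lib
  Fermat.Agent.T1 Fermat.Agent.T3 Fermat.Agent.Curve Fermat.Agent.CurveP
  Fermat.Agent.Curve.PlaceAux RRAux

noncomputable section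

namespace Fermat.Agent.Alpha

local notation "Qb" => AlgebraicClosure ℚ
local notation "GQ" => (AlgebraicClosure ℚ ≃ₐ[ℚ] AlgebraicClosure ℚ)

section Stable

variable {K F : Type*} [Field K] [Field F] [Algebra K F]

/-- a semilinear automorphism carries `L(D)` to `L(g • D)` -/
theorem alpi_smul_mem_rr (g : SemilinearAut K F) {D : Divisor K F} {f : F}
    (hf : f ∈ riemannRochSpace D) : g • f ∈ riemannRochSpace (g • D) := by
  rw [mem_riemannRochSpace_iff] at hf ⊢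
  intro v
  set v' : Place K F := g⁻¹ • v with hv'
  have hv : v = g • v' := by rw [hv', smul_inv_smul]
  rcases hf v' with h0 | h1
  · left
    rw [h0, smul_zero]
  · right
    rw [hv, SemilinearAut.ord_smul g v' f, SemilinearAut.divisor_smul_apply_smul]
    exact h1

/-- `L(D)` is stable under the stabiliser of `D` -/
theorem alpi_smul_mem_rr_of_fixed (g : SemilinearAut K F) {D : Divisor K F} (hD : g • D = D)
    {f : F} (hf : f ∈ riemannRochSpace D) : g • f ∈ riemannRochSpace D := by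
  have h := alpi_smul_mem_rr g hf
  rwa [hD] at h

end Stable

section Span

variable (𝔓 : FFPlace) (M : ℕ) [NeZero M]

/-- **Galois descent of subspaces**: a finite dimensional space of functions which is stable under
inertia is spanned by finitely many functions of level `⊤` (i.e. defined over `ℚ̄^I`) -/
theorem alpi_exists_span_level (U : Submodule Qb ↥(modularFunctionFieldBar M))
    [FiniteDimensional Qb ↥U]
    (hU : ∀ σ ∈ 𝔓.I, ∀ f ∈ U, arithmeticGalois (modularFunctionFieldFull M) σ • f ∈ U) :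
    ∃ (s : Finset ↥(modularFunctionFieldBar M)) (h₀ : ↥s → ↥(tbLevF 𝔓 M ⊤)),
      (∀ i, tbPhiF 𝔓 M ⊤ (h₀ i) = (i : ↥(modularFunctionFieldBar M))) ∧
      (∀ i : ↥s, (i : ↥(modularFunctionFieldBar M)) ∈ U) ∧
      Submodule.span Qb ((s : Set ↥(modularFunctionFieldBar M))) = U := by
  classical
  set W' : Submodule Qb (ℤ → Qb) := U.map (Fermat.Agent.Eis.esCoeffFun M) with hW'
  haveI : FiniteDimensional Qb ↥W' := by
    rw [hW']
    infer_instance
  set S : Set (Qb →+* Qb) := {φ | ∃ σ ∈ 𝔓.I, φ = ((σ : GQ) : Qb →+* Qb)} with hS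
  have hstable : ∀ φ ∈ S, ∀ w ∈ W', (fun i => φ (w i)) ∈ W' := by
    rintro φ ⟨σ, hσ, rfl⟩ w ⟨f, hf, rfl⟩
    exact ⟨arithmeticGalois (modularFunctionFieldFull M) σ • f, hU σ hσ f hf,
      Fermat.Agent.Eis.esCoeffFun_galois_smul M σ f⟩
  have hspan := Fermat.Agent.S23Lib.le_span_fixed_of_stable S W' hstable
  -- the invariant elements of `U`
  set R : Set ↥(modularFunctionFieldBar M) :=
    {f | f ∈ U ∧ ∀ σ ∈ 𝔓.I, arithmeticGalois (modularFunctionFieldFull M) σ • f = f} with hR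
  have hRU : Submodule.span Qb R ≤ U := Submodule.span_le.mpr fun f hf => hf.1
  have hUR : U ≤ Submodule.span Qb R := by
    intro f hf
    have h1 : Fermat.Agent.Eis.esCoeffFun M f ∈ W' := ⟨f, hf, rfl⟩
    have h2 := hspan h1
    have h3 : {w | w ∈ W' ∧ ∀ φ ∈ S, ∀ i, φ (w i) = w i} ⊆
        (Fermat.Agent.Eis.esCoeffFun M) '' R := by
      rintro w ⟨⟨g, hg, rfl⟩, hfix⟩
      refine ⟨g, ⟨hg, fun σ hσ => ?_⟩, rfl⟩
      rw [alpi_smul_eq_iff]
      intro n
      exact hfix _ ⟨σ, hσ, rfl⟩ n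
    have h4 := Submodule.span_mono h3 h2
    rw [Submodule.span_image] at h4
    obtain ⟨g, hg, hgf⟩ := h4
    rwa [Fermat.Agent.Eis.esCoeffFun_injective M hgf] at hg
  have hspanR : Submodule.span Qb R = U := le_antisymm hRU hUR
  have hfg : (Submodule.span Qb R).FG := by
    rw [hspanR]
    exact Module.Finite.iff_fg.mp inferInstance
  obtain ⟨s, hsR, hs⟩ := (Submodule.fg_span_iff_fg_span_finset_subset R).mp hfg
  have hlev : ∀ i : ↥s, ∃ f₀ : ↥(tbLevF 𝔓 M ⊤),
      tbPhiF 𝔓 M ⊤ f₀ = (i : ↥(modularFunctionFieldBar M)) := by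
    intro i
    refine alpi_exists_level 𝔓 M ⊤ fun σ _ => ?_
    exact (hsR i.2).2 (σ : GQ) σ.2
  choose h₀ hh₀ using hlev
  exact ⟨s, h₀, hh₀, fun i => (hsR i.2).1, by rw [← hs, hspanR]⟩

end Span

section Main

variable (𝔓 : FFPlace) (M : ℕ) [NeZero M] (h49 : 4 ∣ M ∨ 9 ∣ M) (hM : ¬ 𝔓.p ∣ M)

/-- scalar multiplication in `F̄_M`, in terms of the scalar multiplication of Laurent series -/
theorem alpi_coe_smul_bar (c : IsLocalRing.ResidueField ↥𝔓.P) (x : ↥(tbBarF 𝔓 M)) :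
    ((c • x : ↥(tbBarF 𝔓 M)) : LaurentSeries (IsLocalRing.ResidueField ↥𝔓.P)) =
      c • (x : LaurentSeries (IsLocalRing.ResidueField ↥𝔓.P)) := by
  rw [IntermediateField.coe_smul]
  ext n
  rw [HahnSeries.coeff_smul, Algebra.smul_def, algebraMap_laurentSeries_eq_single,
    HahnSeries.coeff_single_zero_mul]
  rfl

/-- the representatives of the residue field in `W = 𝔓 ∩ ℚ̄^I` -/
theorem alpi_exists_rep (c : IsLocalRing.ResidueField ↥𝔓.P) :
    ∃ a ∈ Set.range (tbFixIncl 𝔓 ⊤), (t3aBase 𝔓 M hM).resA a = c := by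
  obtain ⟨w, hw⟩ := tbFixRes_surjective 𝔓 ⊤ c
  exact ⟨tbFixIncl 𝔓 ⊤ w, ⟨w, rfl⟩, hw⟩

set_option maxHeartbeats 1600000 in
/-- **inertia-invariant lifts of functions**: for an inertia-invariant divisor `D` of degree
`≥ 2g - 1`, every element of `L̄(red D)` is the reduction of an inertia-invariant Gauss-integral
element of `L(D)`. -/
theorem alpi_lift_fun (D : Divisor Qb ↥(modularFunctionFieldBar M))
    (hI : ∀ σ ∈ 𝔓.I, arithmeticGalois (modularFunctionFieldFull M) σ • D = D)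
    (hD : 2 * (CurveP.genusR Qb ↥(modularFunctionFieldBar M) : ℤ) - 1 ≤ Divisor.degree D)
    {t : ↥(tbBarF 𝔓 M)}
    (ht : t ∈ riemannRochSpace (alprRed (t3a_good_modular 𝔓 M h49 hM) D)) :
    ∃ s : ↥(modularFunctionFieldBar M), s ∈ riemannRochSpace D ∧
      (∀ σ ∈ 𝔓.I, arithmeticGalois (modularFunctionFieldFull M) σ • s = s) ∧
      ∃ hO : s ∈ (t3aBase 𝔓 M hM).Ov, (t3aBase 𝔓 M hM).res ⟨s, hO⟩ = t := by
  classical
  have hg := t3a_good_modular 𝔓 M h49 hM
  haveI : FiniteDimensional Qb ↥(riemannRochSpace D) :=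
    by
    haveI := hg.sep
    exact CurveP.finiteDimensional_riemannRochSpace hg.gen D
  have hU : ∀ σ ∈ 𝔓.I, ∀ f ∈ riemannRochSpace D,
      arithmeticGalois (modularFunctionFieldFull M) σ • f ∈ riemannRochSpace D :=
    fun σ hσ f hf => alpi_smul_mem_rr_of_fixed _ (hI σ hσ) hf
  obtain ⟨s, h₀, hh₀, hsU, hspan⟩ := alpi_exists_span_level 𝔓 M (riemannRochSpace D) hU
  set W₀ : Submodule ↥(tbFix 𝔓 ⊤) ↥(tbLevF 𝔓 M ⊤) :=
    Submodule.span ↥(tbFix 𝔓 ⊤) (Set.range h₀) with hW₀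
  haveI : FiniteDimensional ↥(tbFix 𝔓 ⊤) ↥W₀ :=
    FiniteDimensional.span_of_finite _ (Set.finite_range h₀)
  have hOK : TbLevelOK 𝔓 M ⊤ := t3aOK 𝔓 M hM ⊤ inferInstance
  obtain ⟨n, b, hbG, hbspan, hbind⟩ := hOK.cart W₀ inferInstance
  set B : Fin n → ↥(modularFunctionFieldBar M) := fun i => tbPhiF 𝔓 M ⊤ (b i) with hB
  -- the span of `B` is `L(D)`
  have hUB : riemannRochSpace D ≤ Submodule.span Qb (Set.range B) := by
    rw [← hspan]
    refine Submodule.span_le.mpr fun f hf => ?_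
    have h1 : h₀ ⟨f, hf⟩ ∈ Submodule.span ↥(tbFix 𝔓 ⊤) (Set.range b) := by
      rw [hbspan, hW₀]
      exact Submodule.subset_span ⟨_, rfl⟩
    have h2 := tbPhiF_mem_span 𝔓 M ⊤ b h1
    rwa [hh₀ ⟨f, hf⟩] at h2
  have hBU : ∀ i, B i ∈ riemannRochSpace D := by
    intro i
    have h1 : b i ∈ Submodule.span ↥(tbFix 𝔓 ⊤) (Set.range h₀) := by
      rw [← hW₀, ← hbspan]
      exact Submodule.subset_span ⟨i, rfl⟩
    have h2 := tbPhiF_mem_span 𝔓 M ⊤ h₀ h1
    refine (Submodule.span_le.mpr ?_) h2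
    rintro _ ⟨j, rfl⟩
    show tbPhiF 𝔓 M ⊤ (h₀ j) ∈ riemannRochSpace D
    rw [hh₀ j]
    exact hsU j
  have hBO : ∀ i, B i ∈ (t3aBase 𝔓 M hM).Ov := fun i => tbPhi_gauss 𝔓 ⊤ (hbG i)
  have hBres : ∀ i, (((t3aBase 𝔓 M hM).res ⟨B i, hBO i⟩ : ↥(tbBarF 𝔓 M)) :
      LaurentSeries (IsLocalRing.ResidueField ↥𝔓.P)) =
      tbRhoFun (tbFixO 𝔓 ⊤) (tbFixRes 𝔓 ⊤) (b i : LaurentSeries ↥(tbFix 𝔓 ⊤)) :=
    fun i => tbPhi_rho 𝔓 ⊤ (hbG i)
  have hind : LinearIndependent (IsLocalRing.ResidueField ↥𝔓.P)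
      (fun i => (t3aBase 𝔓 M hM).res ⟨B i, hBO i⟩) := by
    rw [Fintype.linearIndependent_iff]
    intro g hg
    refine Fintype.linearIndependent_iff.mp hbind g ?_
    have h1 := congrArg (Subtype.val : ↥(tbBarF 𝔓 M) →
      LaurentSeries (IsLocalRing.ResidueField ↥𝔓.P)) hg
    rw [AddSubmonoidClass.coe_finsetSum, ZeroMemClass.coe_zero] at h1
    simp only [alpi_coe_smul_bar, hBres] at h1
    exact h1
  obtain ⟨a, haR, hsum, hO, hres⟩ := alpi_lift_of_family hg hD B hBU hBO hUB hind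
    (Set.range (tbFixIncl 𝔓 ⊤)) (alpi_exists_rep 𝔓 M hM) ht
  choose w hw using haR
  set s₀ : ↥(tbLevF 𝔓 M ⊤) := ∑ i, ((w i : ↥(tbFixO 𝔓 ⊤)) : ↥(tbFix 𝔓 ⊤)) • b i with hs₀
  have hs₀eq : tbPhiF 𝔓 M ⊤ s₀ = ∑ i, ((a i : ↥(t3aBase 𝔓 M hM).A) : Qb) • B i := by
    rw [hs₀, map_sum]
    refine Finset.sum_congr rfl fun i _ => ?_
    rw [tbPhiF_smul, ← hw i]
    rfl
  refine ⟨∑ i, ((a i : ↥(t3aBase 𝔓 M hM).A) : Qb) • B i, hsum, ?_, hO, hres⟩
  intro σ hσ
  rw [← hs₀eq]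
  exact alpi_smul_tbPhiF 𝔓 M ⊤ (σ := ⟨σ, hσ⟩) (Subgroup.mem_top _) s₀

end Main

end Fermat.Agent.Alpha
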