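/-
ALPHA-INV, abstract part (helper3): lifting places and effective divisors of the special fibre to
`G`-fixed places / `G`-invariant divisors of the generic fibre.

Setting: good reduction `hg : T3aGood d ℓ x`, `G` a set of semilinear automorphisms of `F / K` which
fix the coordinate `x` and act trivially on the reduction of places ("inertia").  The one input is
the lifting of sections `hfun` (every element of `L̄(red D)` lifts to a `G`-invariant Gauss-integral
element of `L(D)` for `G`-invariant `D` of degree `≥ 2g - 1`), which in the modular setting is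
helper5's `alpi_lift_fun`.

* `alpj_lift_place`   : every place `Q` of `F̄` is the reduction of a `G`-fixed place of `F`;
* `alpj_lift_divisor` : every effective divisor of `F̄` is the reduction of a `G`-invariant effective
  divisor of `F`.
-/
import Mathlib
import Fermat.Agent.Lib.Alpha.Red.RR
import Fermat.Agent.Lib.T3.Gal.Abs

set_option autoImplicit false
set_option linter.unusedSectionVars false
set_option linter.style.haveILetI false

namespace Fermat.Agent.Alpha

open AlgebraicCurve IntermediateField Fermat.Agent.Curve Fermat.Agent.CurveP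
  Fermat.Agent.Curve.PlaceAux Fermat.Agent.T1 Fermat.Agent.T3 RRAux

variable {K F k Fb : Type*} [Field K] [Field F] [Algebra K F] [Field k] [Field Fb] [Algebra k Fb]

section General

/-- `g • div f = div (g • f)`. -/
theorem alpj_smul_divOf [IsAlgClosed K] {x : F} (hx : IsFunctionFieldGen K F x)
    [Algebra.IsSeparable K⟮x⟯ F] (g : SemilinearAut K F) {f : F} (hf : f ≠ 0) :
    g • divOf hx f = divOf hx (g • f) := by
  have hgf : g • f ≠ 0 := by
    intro h0
    apply hf
    have := congrArg (g⁻¹ • ·) h0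
    simpa using this
  ext w
  rw [SemilinearAut.divisor_smul_apply, divOf_apply hx hf, divOf_apply hx hgf]
  have h := SemilinearAut.ord_smul g (g⁻¹ • w) f
  rw [smul_inv_smul] at h
  exact h.symm

/-- the pole divisor of a `g`-fixed function is `g`-invariant. -/
theorem alpj_smul_poleDiv [IsAlgClosed K] {x : F} (hx : IsFunctionFieldGen K F x)
    [Algebra.IsSeparable K⟮x⟯ F] (g : SemilinearAut K F) {f : F} (hgf : g • f = f) :
    g • RRAux.poleDiv hx f = RRAux.poleDiv hx f := by
  ext w
  rw [SemilinearAut.divisor_smul_apply, RRAux.poleDiv_apply, RRAux.poleDiv_apply]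
  have h := SemilinearAut.ord_smul g (g⁻¹ • w) f
  rw [smul_inv_smul, hgf] at h
  rw [h]

/-- `mapDomain` along a map fixed by `g` gives `g`-invariant divisors. -/
theorem alpj_smul_mapDomain (g : SemilinearAut K F) (lift : Place k Fb → Place K F)
    (hlift : ∀ Q, g • lift Q = lift Q) (Eb : Divisor k Fb) :
    g • (Finsupp.mapDomain lift Eb : Divisor K F) = Finsupp.mapDomain lift Eb := by
  rw [SemilinearAut.divisor_smul_def, ← Finsupp.mapDomain_comp]
  congr 1
  funext Q
  exact hlift Q

end General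

variable [IsAlgClosed K] [IsAlgClosed k]
variable {d : TbBase K F k Fb} {ℓ : ℕ} {x : F} (hg : T3aGood d ℓ x)

/-- if `E ≥ 0` and `red E` has multiplicity one at `Q`, exactly one point of `E` reduces to `Q`. -/
theorem alpj_exists_unique_of_red_eq_one {E : Divisor K F} (hE : 0 ≤ E) {Q : Place k Fb}
    (h1 : alprRed hg E Q = 1) :
    ∃ P0 : Place K F, t3aR hg P0 = Q ∧ E P0 = 1 ∧
      ∀ P : Place K F, t3aR hg P = Q → P ≠ P0 → E P = 0 := by
  classical
  -- some point of `E` reduces to `Q`
  have hex : ∃ P0 : Place K F, t3aR hg P0 = Q ∧ 0 < E P0 := by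
    by_contra hcon
    push Not at hcon
    have h0 : alprRed hg E Q = 0 := by
      rw [alprRed_apply, t3a_mapDomain_apply]
      refine Finset.sum_eq_zero fun P _ => ?_
      split_ifs with hP
      · have h2 := hcon P hP
        have h3 := hE P
        rw [Finsupp.zero_apply] at h3
        omega
      · rfl
    rw [h0] at h1
    exact zero_ne_one h1
  obtain ⟨P0, hP0, hpos⟩ := hex
  have hE' : 0 ≤ E - Finsupp.single P0 1 := by
    intro P
    rw [Finsupp.zero_apply, Finsupp.sub_apply]
    by_cases hP : P = P0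
    · subst hP
      rw [Finsupp.single_eq_same]
      omega
    · rw [Finsupp.single_eq_of_ne hP]
      have := hE P
      rw [Finsupp.zero_apply] at this
      omega
  have hred' : alprRed hg (E - Finsupp.single P0 1) Q = 0 := by
    rw [map_sub, alprRed_single, Finsupp.sub_apply, h1, hP0, Finsupp.single_eq_same]
    norm_num
  have hzero : ∀ P : Place K F, t3aR hg P = Q → (E - Finsupp.single P0 1 : Divisor K F) P = 0 := by
    intro P hP
    apply alpr_eq_zero_of_red_eq_zero hg hE'
    rw [hP]
    exact hred'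
  refine ⟨P0, hP0, ?_, ?_⟩
  · have := hzero P0 hP0
    rw [Finsupp.sub_apply, Finsupp.single_eq_same] at this
    omega
  · intro P hP hne
    have := hzero P hP
    rwa [Finsupp.sub_apply, Finsupp.single_eq_of_ne hne, sub_zero] at this

/-- lifting a place lying on the chart `x̄ ≠ ∞`. -/
theorem alpj_lift_place_chart (G : Set (SemilinearAut K F)) (hGx : ∀ g ∈ G, g • x = x)
    (hGr : ∀ g ∈ G, ∀ P : Place K F, t3aR hg (g • P) = t3aR hg P)
    (hfun : ∀ D : Divisor K F, (∀ g ∈ G, g • D = D) →
      2 * (genusR K F : ℤ) - 1 ≤ Divisor.degree D →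
      ∀ t ∈ riemannRochSpace (alprRed hg D),
        ∃ s : F, s ∈ riemannRochSpace D ∧ (∀ g ∈ G, g • s = s) ∧
          ∃ hO : s ∈ d.Ov, d.res ⟨s, hO⟩ = t)
    (Q : Place k Fb) (hQ : 0 ≤ Q.ord hg.xb) :
    ∃ P : Place K F, t3aR hg P = Q ∧ ∀ g ∈ G, g • P = P := by
  haveI := hg.sep
  haveI := hg.sepb'
  have hgen := alpr_genus_eq hg
  set m : ℕ := 2 * genusR K F + 1 with hm
  set D : Divisor K F := (m : ℤ) • RRAux.poleDiv hg.gen x with hD
  -- degree
  have hnx : 0 < Module.finrank K⟮x⟯ F := by
    haveI := hg.gen.finite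
    exact Module.finrank_pos
  have hdegD : (m : ℤ) ≤ Divisor.degree D := by
    rw [hD, map_zsmul, RRAux.degree_poleDiv_gen, smul_eq_mul]
    have h1 : (1 : ℤ) ≤ (Module.finrank K⟮x⟯ F : ℤ) := by exact_mod_cast hnx
    have h2 : (0 : ℤ) ≤ (m : ℤ) := Int.natCast_nonneg _
    nlinarith
  have hm' : (m : ℤ) = 2 * (genusR K F : ℤ) + 1 := by rw [hm]; push_cast; ring
  -- invariance
  have hGD : ∀ g ∈ G, g • D = D := by
    intro g hgG
    rw [hD, smul_comm, alpj_smul_poleDiv hg.gen g (hGx g hgG)]
  -- the reduction of `D`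
  have hredD : alprRed hg D = (m : ℤ) • RRAux.poleDiv hg.genb' hg.xb := by
    rw [hD, map_zsmul, alprRed_apply]
    congr 1
    exact t3a_mapDomain_poles hg (t3aR_isRed hg) _ (RRAux.poleDiv_apply hg.gen x) _
      (RRAux.poleDiv_apply hg.genb' hg.xb)
  have hDQ : alprRed hg D Q = 0 := by
    rw [hredD, Finsupp.smul_apply, RRAux.poleDiv_apply, max_eq_left (by omega), smul_zero]
  -- a uniformiser `t̄` at `Q` in `L̄(red D - Q)`
  have hdegA : 2 * (genusR k Fb : ℤ) ≤
      Divisor.degree (alprRed hg D - Finsupp.single Q 1) := by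
    rw [alpk_degree_sub_single hg.genb', alpr_degree_red, ← hgen]
    omega
  obtain ⟨t, ht, ht0, htQ⟩ := alpk_exists_exact hg.genb' hdegA Q
  rw [Finsupp.sub_apply, hDQ, Finsupp.single_eq_same] at htQ
  have htD : t ∈ riemannRochSpace (alprRed hg D) :=
    alpk_space_sub_single_le hg.genb' _ Q ht
  -- lift
  obtain ⟨s, hs, hsG, hO, hst⟩ := hfun D hGD (by omega) t htD
  have hres : d.res ⟨s, hO⟩ ≠ 0 := by rw [hst]; exact ht0
  have hs0 : s ≠ 0 := t3a_ne_zero_of_res_ne_zero d hO hres
  have hE : 0 ≤ D + divOf hg.gen s := add_divOf_nonneg hg.gen hs hs0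
  have hredE : alprRed hg (D + divOf hg.gen s) Q = 1 := by
    rw [map_add, alpr_red_divOf hg hO hres, Finsupp.add_apply, hDQ,
      divOf_apply hg.genb' hres, hst, htQ]
    norm_num
  obtain ⟨P0, hP0, hEP0, huniq⟩ := alpj_exists_unique_of_red_eq_one hg hE hredE
  refine ⟨P0, hP0, fun g hgG => ?_⟩
  by_contra hne
  have hEinv : g • (D + divOf hg.gen s) = D + divOf hg.gen s := by
    rw [smul_add, hGD g hgG, alpj_smul_divOf hg.gen g hs0, hsG g hgG]
  have h1 : (D + divOf hg.gen s) (g • P0) = 1 := by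
    have := SemilinearAut.divisor_smul_apply_smul g (D + divOf hg.gen s) P0
    rw [hEinv] at this
    rw [this, hEP0]
  have h2 := huniq (g • P0) (by rw [hGr g hgG, hP0]) hne
  rw [h1] at h2
  exact one_ne_zero h2

/-- **lifting places**: every place of the special fibre is the reduction of a `G`-fixed place. -/
theorem alpj_lift_place (G : Set (SemilinearAut K F)) (hGx : ∀ g ∈ G, g • x = x)
    (hGr : ∀ g ∈ G, ∀ P : Place K F, t3aR hg (g • P) = t3aR hg P)
    (hfun : ∀ D : Divisor K F, (∀ g ∈ G, g • D = D) →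
      2 * (genusR K F : ℤ) - 1 ≤ Divisor.degree D →
      ∀ t ∈ riemannRochSpace (alprRed hg D),
        ∃ s : F, s ∈ riemannRochSpace D ∧ (∀ g ∈ G, g • s = s) ∧
          ∃ hO : s ∈ d.Ov, d.res ⟨s, hO⟩ = t)
    (Q : Place k Fb) : ∃ P : Place K F, t3aR hg P = Q ∧ ∀ g ∈ G, g • P = P := by
  rcases le_or_gt 0 (Q.ord hg.xb) with hQ | hQ
  · exact alpj_lift_place_chart hg G hGx hGr hfun Q hQ
  · -- use the chart `x⁻¹`
    have hR : t3aR hg = t3aR hg.inv := T3aIsRed.eq_t3aR hg.inv (t3aR_isRed hg).inv
    have hRed : alprRed hg.inv = alprRed hg := by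
      apply AddMonoidHom.ext
      intro D
      rw [alprRed_apply, alprRed_apply, hR]
    have hxb : hg.inv.xb = hg.xb⁻¹ := hg.res_inv
    have hQ' : 0 ≤ Q.ord hg.inv.xb := by
      rw [hxb, Q.ord_inv]; omega
    have := alpj_lift_place_chart hg.inv G
      (fun g hgG => by rw [smul_inv'', hGx g hgG])
      (fun g hgG P => by rw [← hR]; exact hGr g hgG P)
      (fun D hD hdeg t ht => by
        rw [hRed] at ht
        exact hfun D hD hdeg t ht) Q hQ'
    rw [← hR] at this
    exact this

/-- **lifting effective divisors** to `G`-invariant effective divisors. -/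
theorem alpj_lift_divisor (G : Set (SemilinearAut K F)) (hGx : ∀ g ∈ G, g • x = x)
    (hGr : ∀ g ∈ G, ∀ P : Place K F, t3aR hg (g • P) = t3aR hg P)
    (hfun : ∀ D : Divisor K F, (∀ g ∈ G, g • D = D) →
      2 * (genusR K F : ℤ) - 1 ≤ Divisor.degree D →
      ∀ t ∈ riemannRochSpace (alprRed hg D),
        ∃ s : F, s ∈ riemannRochSpace D ∧ (∀ g ∈ G, g • s = s) ∧
          ∃ hO : s ∈ d.Ov, d.res ⟨s, hO⟩ = t)
    (Eb : Divisor k Fb) (hEb : 0 ≤ Eb) :
    ∃ E : Divisor K F, 0 ≤ E ∧ alprRed hg E = Eb ∧ ∀ g ∈ G, g • E = E := by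
  choose lift hlift1 hlift2 using alpj_lift_place hg G hGx hGr hfun
  refine ⟨Finsupp.mapDomain lift Eb, t3a_mapDomain_nonneg lift hEb, ?_, fun g hgG => ?_⟩
  · rw [alprRed_apply, ← Finsupp.mapDomain_comp]
    have : t3aR hg ∘ lift = id := funext hlift1
    rw [this, Finsupp.mapDomain_id]
  · exact alpj_smul_mapDomain g lift (fun Q => hlift2 Q g hgG) Eb

end Fermat.Agent.Alpha
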