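/-
ALPHA-INV (helper5), part 4: **inertia-invariant lifts of places and divisors** (modular instance
of helper3's abstract `alpj_lift_place` / `alpj_lift_divisor`, fed with `alpi_lift_fun`).

Every place `Q` of the special fibre `F̄_M` is the reduction of a place of `F_M` fixed by the inertia
group `𝔓.I`; hence every divisor of the special fibre lifts to an inertia-invariant divisor
(effective if the given one is).
-/
import Fermat.Agent.Lib.Alpha.Inv.LiftFun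
import Fermat.Agent.Lib.Alpha.Inv.PlaceAbs
import Fermat.Agent.Lib.T3.Gal.Mod

set_option autoImplicit false
set_option linter.style.haveILetI false
set_option linter.unusedSectionVars false
set_option synthInstance.maxHeartbeats 400000

open HahnSeries ModularCurve AlgebraicCurve IntermediateField Fermat.Agent.TW Fermat.Agent.S05Lib
  Fermat.Agent.T1 Fermat.Agent.T3 Fermat.Agent.Curve Fermat.Agent.CurveP
  Fermat.Agent.Curve.PlaceAux RRAux

noncomputable section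

namespace Fermat.Agent.Alpha

local notation "Qb" => AlgebraicClosure ℚ
local notation "GQ" => (AlgebraicClosure ℚ ≃ₐ[ℚ] AlgebraicClosure ℚ)

variable (𝔓 : FFPlace) (M : ℕ) [NeZero M] (h49 : 4 ∣ M ∨ 9 ∣ M) (hM : ¬ 𝔓.p ∣ M)

/-- the arithmetic action fixes `j` -/
theorem alpi_smul_tbJ (σ : GQ) :
    arithmeticGalois (modularFunctionFieldFull M) σ • tbJ M = tbJ M :=
  Subtype.ext (coeffMap_jqModC _)

/-- inertia acts trivially on the reductions of places -/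
theorem alpi_red_inertia {σ : GQ} (hσ : σ ∈ 𝔓.I)
    (P : Place Qb ↥(modularFunctionFieldBar M)) :
    t3aR (t3a_good_modular 𝔓 M h49 hM) (arithmeticGalois (modularFunctionFieldFull M) σ • P) =
      t3aR (t3a_good_modular 𝔓 M h49 hM) P :=
  t3b_red_inertia (t3aOK 𝔓 M hM) (t3a_good_modular 𝔓 M h49 hM)
    (t3aR_isRed (t3a_good_modular 𝔓 M h49 hM)) hσ P

/-- inertia acts trivially on the reductions of divisors -/
theorem alpi_red_inertia_div {σ : GQ} (hσ : σ ∈ 𝔓.I)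
    (D : Divisor Qb ↥(modularFunctionFieldBar M)) :
    alprRed (t3a_good_modular 𝔓 M h49 hM)
      (arithmeticGalois (modularFunctionFieldFull M) σ • D) =
      alprRed (t3a_good_modular 𝔓 M h49 hM) D :=
  t3b_mapDomain_inertia (t3aOK 𝔓 M hM) (t3a_good_modular 𝔓 M h49 hM)
    (t3aR_isRed (t3a_good_modular 𝔓 M h49 hM)) hσ D

/-- the image of the inertia group in the semilinear automorphisms of `F_M` -/
def alpiInertia : Set (SemilinearAut Qb ↥(modularFunctionFieldBar M)) :=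
  {g | ∃ σ ∈ 𝔓.I, g = arithmeticGalois (modularFunctionFieldFull M) σ}

theorem alpi_inertia_hGx : ∀ g ∈ alpiInertia 𝔓 M, g • tbJ M = tbJ M := by
  rintro g ⟨σ, _, rfl⟩
  exact alpi_smul_tbJ M σ

theorem alpi_inertia_hGr : ∀ g ∈ alpiInertia 𝔓 M,
    ∀ P : Place Qb ↥(modularFunctionFieldBar M),
      t3aR (t3a_good_modular 𝔓 M h49 hM) (g • P) = t3aR (t3a_good_modular 𝔓 M h49 hM) P := by
  rintro g ⟨σ, hσ, rfl⟩ P
  exact alpi_red_inertia 𝔓 M h49 hM hσ P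

set_option maxHeartbeats 1600000 in
/-- `alpi_lift_fun` in the shape of the hypothesis `hfun` of `alpj_lift_place` -/
theorem alpi_inertia_hfun : ∀ D : Divisor Qb ↥(modularFunctionFieldBar M),
    (∀ g ∈ alpiInertia 𝔓 M, g • D = D) →
    2 * (CurveP.genusR Qb ↥(modularFunctionFieldBar M) : ℤ) - 1 ≤ Divisor.degree D →
    ∀ t ∈ riemannRochSpace (alprRed (t3a_good_modular 𝔓 M h49 hM) D),
      ∃ s : ↥(modularFunctionFieldBar M), s ∈ riemannRochSpace D ∧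
        (∀ g ∈ alpiInertia 𝔓 M, g • s = s) ∧
        ∃ hO : s ∈ (t3aBase 𝔓 M hM).Ov, (t3aBase 𝔓 M hM).res ⟨s, hO⟩ = t := by
  intro D hGD hdeg t ht
  obtain ⟨s, hs, hsI, hO, hres⟩ := alpi_lift_fun 𝔓 M h49 hM D
    (fun σ hσ => hGD _ ⟨σ, hσ, rfl⟩) hdeg ht
  refine ⟨s, hs, ?_, hO, hres⟩
  rintro g ⟨σ, hσ, rfl⟩
  exact hsI σ hσ

set_option maxHeartbeats 1600000 in
/-- **every place of the special fibre lifts to an inertia-fixed place** -/
theorem alpi_lift_place (Q : Place (IsLocalRing.ResidueField ↥𝔓.P) ↥(tbBarF 𝔓 M)) :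
    ∃ P : Place Qb ↥(modularFunctionFieldBar M),
      t3aR (t3a_good_modular 𝔓 M h49 hM) P = Q ∧
      ∀ σ ∈ 𝔓.I, arithmeticGalois (modularFunctionFieldFull M) σ • P = P := by
  obtain ⟨P, hP, hfix⟩ := alpj_lift_place (t3a_good_modular 𝔓 M h49 hM) (alpiInertia 𝔓 M)
    (alpi_inertia_hGx 𝔓 M) (alpi_inertia_hGr 𝔓 M h49 hM) (alpi_inertia_hfun 𝔓 M h49 hM) Q
  exact ⟨P, hP, fun σ hσ => hfix _ ⟨σ, hσ, rfl⟩⟩

set_option maxHeartbeats 1600000 in
/-- **every effective divisor of the special fibre lifts to an inertia-invariant effective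
divisor** -/
theorem alpi_lift_divisor (Eb : Divisor (IsLocalRing.ResidueField ↥𝔓.P) ↥(tbBarF 𝔓 M))
    (hEb : 0 ≤ Eb) :
    ∃ E : Divisor Qb ↥(modularFunctionFieldBar M), 0 ≤ E ∧
      alprRed (t3a_good_modular 𝔓 M h49 hM) E = Eb ∧
      ∀ σ ∈ 𝔓.I, arithmeticGalois (modularFunctionFieldFull M) σ • E = E := by
  obtain ⟨E, hE, hred, hfix⟩ := alpj_lift_divisor (t3a_good_modular 𝔓 M h49 hM)
    (alpiInertia 𝔓 M) (alpi_inertia_hGx 𝔓 M) (alpi_inertia_hGr 𝔓 M h49 hM)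
    (alpi_inertia_hfun 𝔓 M h49 hM) Eb hEb
  exact ⟨E, hE, hred, fun σ hσ => hfix _ ⟨σ, hσ, rfl⟩⟩

/-- a choice of inertia-fixed lifts of the places of the special fibre -/
def alpiLift (Q : Place (IsLocalRing.ResidueField ↥𝔓.P) ↥(tbBarF 𝔓 M)) :
    Place Qb ↥(modularFunctionFieldBar M) :=
  (alpi_lift_place 𝔓 M h49 hM Q).choose

theorem alpi_red_alpiLift (Q : Place (IsLocalRing.ResidueField ↥𝔓.P) ↥(tbBarF 𝔓 M)) :
    t3aR (t3a_good_modular 𝔓 M h49 hM) (alpiLift 𝔓 M h49 hM Q) = Q :=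
  (alpi_lift_place 𝔓 M h49 hM Q).choose_spec.1

theorem alpi_smul_alpiLift {σ : GQ} (hσ : σ ∈ 𝔓.I)
    (Q : Place (IsLocalRing.ResidueField ↥𝔓.P) ↥(tbBarF 𝔓 M)) :
    arithmeticGalois (modularFunctionFieldFull M) σ • alpiLift 𝔓 M h49 hM Q =
      alpiLift 𝔓 M h49 hM Q :=
  (alpi_lift_place 𝔓 M h49 hM Q).choose_spec.2 σ hσ

/-- the additive lift of divisors (a section of the reduction of divisors with inertia-invariant
values) -/
def alpiLiftDiv : Divisor (IsLocalRing.ResidueField ↥𝔓.P) ↥(tbBarF 𝔓 M) →+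
    Divisor Qb ↥(modularFunctionFieldBar M) :=
  Finsupp.mapDomain.addMonoidHom (alpiLift 𝔓 M h49 hM)

theorem alpiLiftDiv_apply (Eb : Divisor (IsLocalRing.ResidueField ↥𝔓.P) ↥(tbBarF 𝔓 M)) :
    alpiLiftDiv 𝔓 M h49 hM Eb = Finsupp.mapDomain (alpiLift 𝔓 M h49 hM) Eb := rfl

theorem alpi_red_alpiLiftDiv (Eb : Divisor (IsLocalRing.ResidueField ↥𝔓.P) ↥(tbBarF 𝔓 M)) :
    alprRed (t3a_good_modular 𝔓 M h49 hM) (alpiLiftDiv 𝔓 M h49 hM Eb) = Eb := by
  rw [alprRed_apply, alpiLiftDiv_apply, ← Finsupp.mapDomain_comp]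
  have : (t3aR (t3a_good_modular 𝔓 M h49 hM) ∘ alpiLift 𝔓 M h49 hM) = id :=
    funext fun Q => alpi_red_alpiLift 𝔓 M h49 hM Q
  rw [this, Finsupp.mapDomain_id]

theorem alpi_smul_alpiLiftDiv {σ : GQ} (hσ : σ ∈ 𝔓.I)
    (Eb : Divisor (IsLocalRing.ResidueField ↥𝔓.P) ↥(tbBarF 𝔓 M)) :
    arithmeticGalois (modularFunctionFieldFull M) σ • alpiLiftDiv 𝔓 M h49 hM Eb =
      alpiLiftDiv 𝔓 M h49 hM Eb :=
  alpj_smul_mapDomain _ _ (fun Q => alpi_smul_alpiLift 𝔓 M h49 hM hσ Q) Eb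

theorem alpiLiftDiv_nonneg {Eb : Divisor (IsLocalRing.ResidueField ↥𝔓.P) ↥(tbBarF 𝔓 M)}
    (h : 0 ≤ Eb) : 0 ≤ alpiLiftDiv 𝔓 M h49 hM Eb :=
  t3a_mapDomain_nonneg (alpiLift 𝔓 M h49 hM) h

end Fermat.Agent.Alpha
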